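import Fermat.Agent.LT.T6.H769.CoreNorm

/-!
# Row LT, T6.00q.7 `CoreC438` (helper769, OFF-MAIN): the leaf

`coreC769 : NormFC438 → CoreC438`: Hasse principle for "`ℚ(√d)` splits `(-3, c)_ℚ`", by
Legendre's theorem, Dirichlet's theorem and Jacobi reciprocity.
-/

set_option autoImplicit false

namespace Fermat.Agent.LT.T6.H769

open Fermat.Agent.LT.T6.H438
open scoped NumberTheorySymbols

/-- The squarefree part `m` of `-3d`. -/
theorem sqfree_part769 (d : ℤ) (hd : Squarefree d) (hd3 : d ≠ -3) :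
    ∃ m k₃ : ℤ, -3 * d = m * k₃ ^ 2 ∧ Squarefree m ∧ m ≠ 1 ∧
      ((k₃ = 1 ∧ ¬ (3 : ℤ) ∣ d ∧ (3 : ℤ) ∣ m) ∨ (k₃ = 3 ∧ (3 : ℤ) ∣ d ∧ ¬ (3 : ℤ) ∣ m)) := by
  have h3p : Prime (3 : ℤ) := by
    have := Nat.prime_iff_prime_int.mp Nat.prime_three
    exact_mod_cast this
  by_cases h3 : (3 : ℤ) ∣ d
  · obtain ⟨d', hd'⟩ := h3
    refine ⟨-d', 3, by rw [hd']; ring, ?_, ?_, Or.inr ⟨rfl, ⟨d', hd'⟩, ?_⟩⟩
    · apply sqf_neg769
      rw [hd'] at hd
      exact hd.of_mul_right
    · intro h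
      apply hd3
      rw [hd']
      linarith
    · rw [dvd_neg]
      rintro ⟨d'', hd''⟩
      have h1 : (3 : ℤ) * 3 ∣ d := ⟨d'', by rw [hd', hd'']; ring⟩
      have h2 := hd 3 h1
      rw [Int.isUnit_iff] at h2
      omega
  · refine ⟨-3 * d, 1, by ring, ?_, ?_, Or.inl ⟨rfl, h3, ⟨-d, by ring⟩⟩⟩
    · have h1 : Squarefree ((3 : ℤ) * d) :=
        squarefree_mul_iff.mpr ⟨(h3p.coprime_iff_not_dvd.mpr h3).isRelPrime, h3p.squarefree, hd⟩
      have h2 := sqf_neg769 h1
      have h4 : -((3 : ℤ) * d) = -3 * d := by ring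
      rw [h4] at h2
      exact h2
    · omega

/-- **Leaf T6.00q.7 (CORE).** -/
theorem coreC769 (hF : NormFC438) : CoreC438 := by
  intro d c hd hd1 hd3 hc hR
  have h3p : Prime (3 : ℤ) := by
    have := Nat.prime_iff_prime_int.mp Nat.prime_three
    exact_mod_cast this
  -- the set `P` and `c₂`
  have hPmem : ∀ p, p ∈ Pset769 c ↔ p.Prime ∧ p % 3 = 2 ∧ Odd (padicValRat p c) :=
    mem_Pset769 hc
  obtain ⟨P, hPdef⟩ : ∃ P : Finset ℕ, P = Pset769 c := ⟨_, rfl⟩
  rw [← hPdef] at hPmem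
  have hPprime : ∀ p ∈ P, p.Prime := fun p hp => ((hPmem p).mp hp).1
  have hP3 : ∀ p ∈ P, p % 3 = 2 := fun p hp => ((hPmem p).mp hp).2.1
  obtain ⟨c₂, hc₂⟩ : ∃ c₂ : ℕ, c₂ = ∏ r ∈ P, r := ⟨_, rfl⟩
  have hc₂pos : 0 < c₂ := by
    rw [hc₂]
    exact Finset.prod_pos (fun p hp => (hPprime p hp).pos)
  have hc₂sq : Squarefree c₂ := by rw [hc₂]; exact sqf_prod769 hPprime
  have hc₂dvd : ∀ p : ℕ, p.Prime → (p ∣ c₂ ↔ p ∈ P) := by
    intro p hp
    rw [hc₂]
    exact prime_dvd_prod769 hPprime hp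
  have hc₂3 : c₂ % 3 = if Even P.card then 1 else 2 := by
    rw [hc₂]
    exact prod_mod3_769 P hP3
  have hc₂val : ∀ p : ℕ, p.Prime → padicValNat p c₂ = if p ∈ P then 1 else 0 := by
    intro p hp
    rw [hc₂]
    exact val_prod769 hPprime hp
  have h3c₂ : ¬ 3 ∣ c₂ := by
    intro h
    have := hP3 3 ((hc₂dvd 3 Nat.prime_three).mp h)
    omega
  -- the sign
  obtain ⟨s, hs, hspos⟩ : ∃ s : ℤ, (s = 1 ∨ s = -1) ∧ (s = 1 ↔ 0 < c) := by
    by_cases h : 0 < c
    · exact ⟨1, Or.inl rfl, by simp [h]⟩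
    · exact ⟨-1, Or.inr rfl, by simp [h]⟩
  have hLam : d % 3 = 1 → (0 < c ↔ Even P.card) := by
    intro h
    obtain ⟨P', hP', hL⟩ := hR.atThree h
    have : P' = P := by
      ext p
      rw [hP', hPmem]
    rw [this] at hL
    exact hL
  obtain ⟨m, k₃, hmk, hmsq, hm1, hm3⟩ := sqfree_part769 d hd hd3
  have hk₃ : k₃ = 1 ∨ k₃ = 3 := by
    rcases hm3 with h | h
    · exact Or.inl h.1
    · exact Or.inr h.1
  obtain ⟨T, hT, hT3, hT1⟩ : ∃ T : ℕ, (T = 1 ∨ T = 3) ∧
      (T = 3 → ¬ (3 : ℤ) ∣ d ∧ ¬ (0 < c ↔ Even P.card)) ∧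
      (T = 1 → ¬ (3 : ℤ) ∣ d → (0 < c ↔ Even P.card)) := by
    by_cases h : ¬ (3 : ℤ) ∣ d ∧ ¬ (0 < c ↔ Even P.card)
    · exact ⟨3, Or.inr rfl, fun _ => h, fun h' => by omega⟩
    · refine ⟨1, Or.inl rfl, fun h' => by omega, fun _ h3 => ?_⟩
      by_contra h'
      exact h ⟨h3, h'⟩
  have hT0 : 0 < T := by rcases hT with h | h <;> omega
  -- the integer `n₀`
  obtain ⟨n₀, hn₀⟩ : ∃ n₀ : ℤ, n₀ = s * c₂ * T := ⟨_, rfl⟩
  have hn₀abs : n₀.natAbs = c₂ * T := by
    rw [hn₀, Int.natAbs_mul, Int.natAbs_mul, Int.natAbs_natCast, Int.natAbs_natCast]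
    rcases hs with h | h <;> rw [h] <;> simp
  have hn₀sq : Squarefree n₀ := by
    rw [← Int.squarefree_natAbs, hn₀abs, Nat.squarefree_mul_iff]
    refine ⟨?_, hc₂sq, ?_⟩
    · rcases hT with h | h <;> rw [h]
      · exact Nat.coprime_one_right _
      · exact ((Nat.Prime.coprime_iff_not_dvd Nat.prime_three).mpr h3c₂).symm
    · rcases hT with h | h <;> rw [h]
      · exact squarefree_one
      · exact Nat.prime_three.squarefree
  have hn₀dvd : ∀ p : ℕ, p.Prime → (p : ℤ) ∣ n₀ → p ∣ c₂ ∨ p ∣ T := by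
    intro p hp h
    have h1 : p ∣ n₀.natAbs := Int.natCast_dvd.mp h
    rw [hn₀abs] at h1
    exact (Nat.Prime.dvd_mul hp).mp h1
  have hdm : ∀ p : ℕ, p.Prime → p ≠ 3 → (p : ℤ) ∣ d → (p : ℤ) ∣ m := by
    intro p hp hp3 h
    have hpz : Prime (p : ℤ) := Nat.prime_iff_prime_int.mp hp
    have h1 : (p : ℤ) ∣ m * k₃ ^ 2 := by
      rw [← hmk]
      exact h.mul_left _
    rcases hpz.dvd_or_dvd h1 with h2 | h2
    · exact h2
    · exfalso
      have h3 := hpz.dvd_of_dvd_pow h2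
      rcases hk₃ with h | h <;> rw [h] at h3
      · exact hpz.not_dvd_one h3
      · have h4 : p ∣ 3 := by exact_mod_cast h3
        exact hp3 ((Nat.prime_dvd_prime_iff_eq hp Nat.prime_three).mp h4)
  have hsign : ¬ (m < 0 ∧ n₀ < 0) := by
    rintro ⟨h1, h2⟩
    have hk0 : 0 < k₃ ^ 2 := by rcases hk₃ with h | h <;> rw [h] <;> norm_num
    have h3 : m * k₃ ^ 2 < 0 := mul_neg_of_neg_of_pos h1 hk0
    have hd0 : 0 < d := by linarith
    have hc0 := hR.atInf hd0
    have hs1 : s = 1 := hspos.mpr hc0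
    rw [hn₀, hs1] at h2
    have : (0 : ℤ) ≤ 1 * (c₂ : ℤ) * (T : ℤ) := by positivity
    linarith
  have hL1 : ∀ p : ℕ, p.Prime → p ≠ 2 → (p : ℤ) ∣ n₀ → ¬ (p : ℤ) ∣ m → J(m | p) = 1 := by
    intro p hp hp2 hpn hpm
    rcases hn₀dvd p hp hpn with h | h
    · have hpP := (hc₂dvd p hp).mp h
      obtain ⟨-, hp3, hodd⟩ := (hPmem p).mp hpP
      have hp3' : p ≠ 3 := by rintro rfl; omega
      have hpd : ¬ (p : ℤ) ∣ d := fun h' => hpm (hdm p hp hp3' h')
      have hns := hR.atInert p hp hp3 hodd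
      have : Fact p.Prime := ⟨hp⟩
      have hnsq : ¬ IsSquare ((d : ZMod p)) := fun hsq => hns (Or.inr ⟨hp2, hpd, hsq⟩)
      have hJd : J(d | p) = -1 := ZMod.nonsquare_iff_jacobiSym_eq_neg_one.mpr hnsq
      have hpodd : p % 2 = 1 := by
        rcases hp.eq_two_or_odd with h' | h'
        · exact absurd h' hp2
        · exact h'
      have hJ3 : J(-3 | p) = -1 := jac_neg_three769 hpodd hp3
      have h1 : J(-3 * d | p) = 1 := by rw [jacobiSym.mul_left, hJ3, hJd]; norm_num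
      rw [hmk, jacobiSym.mul_left, jacobiSym.pow_left] at h1
      have h2 : J(k₃ | p) ^ 2 = 1 := by
        apply jacobiSym.sq_one
        rcases hk₃ with h' | h' <;> rw [h']
        · simp
        · have : Nat.Coprime 3 p := (Nat.coprime_primes Nat.prime_three hp).mpr (Ne.symm hp3')
          exact_mod_cast this
      rw [h2, mul_one] at h1
      exact h1
    · exfalso
      rcases hT with h' | h'
      · rw [h'] at h
        exact hp.one_lt.ne' (Nat.dvd_one.mp h)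
      · rw [h'] at h
        have hp3 : p = 3 := (Nat.prime_dvd_prime_iff_eq hp Nat.prime_three).mp h
        have h3d := (hT3 h').1
        rcases hm3 with h'' | h''
        · apply hpm
          rw [hp3]
          exact_mod_cast h''.2.2
        · exact h3d h''.2.1
  have hL3 : (2 : ℤ) ∣ n₀ → ¬ (2 : ℤ) ∣ m → m % 8 ≠ 5 := by
    intro h2 _ hm5
    have h2' : 2 ∣ c₂ := by
      rcases hn₀dvd 2 Nat.prime_two (by exact_mod_cast h2) with h | h
      · exact h
      · exfalso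
        rcases hT with h' | h' <;> rw [h'] at h <;> omega
    have h2P := (hc₂dvd 2 Nat.prime_two).mp h2'
    obtain ⟨-, h23, hodd⟩ := (hPmem 2).mp h2P
    have hns := hR.atInert 2 Nat.prime_two h23 hodd
    apply hns
    refine Or.inl ⟨rfl, ?_⟩
    rcases hk₃ with h | h <;> rw [h] at hmk <;> omega
  -- `s c₂ mod 3`
  have hsc3 : (0 < c ↔ Even P.card) → (s * (c₂ : ℤ)) % 3 = 1 := by
    intro hiff
    by_cases h : 0 < c
    · have hs1 : s = 1 := hspos.mpr h
      have hev := hiff.mp h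
      rw [if_pos hev] at hc₂3
      rw [hs1]
      omega
    · have hs1 : s = -1 := by
        rcases hs with h' | h'
        · exact absurd (hspos.mp h') h
        · exact h'
      have hev : ¬ Even P.card := fun h' => h (hiff.mpr h')
      rw [if_neg hev] at hc₂3
      rw [hs1]
      omega
  have hsc3' : ¬ (0 < c ↔ Even P.card) → (s * (c₂ : ℤ)) % 3 = 2 := by
    intro hiff
    by_cases h : 0 < c
    · have hs1 : s = 1 := hspos.mpr h
      have hev : ¬ Even P.card := fun h' => hiff ⟨fun _ => h', fun _ => h⟩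
      rw [if_neg hev] at hc₂3
      rw [hs1]
      omega
    · have hs1 : s = -1 := by
        rcases hs with h' | h'
        · exact absurd (hspos.mp h') h
        · exact h'
      have hev : Even P.card := by
        by_contra h'
        exact hiff ⟨fun h'' => absurd h'' h, fun h'' => absurd h'' h'⟩
      rw [if_pos hev] at hc₂3
      rw [hs1]
      omega
  have h3n₀ : (3 : ℤ) ∣ n₀ → T = 3 := by
    intro h
    rcases hn₀dvd 3 Nat.prime_three (by exact_mod_cast h) with h' | h'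
    · exact absurd h' h3c₂
    · rcases hT with h'' | h''
      · rw [h''] at h'
        omega
      · exact h''
  have hL4a : (3 : ℤ) ∣ m → ¬ (3 : ℤ) ∣ n₀ → n₀ % 3 = 1 := by
    intro h3m h3n
    have h3d : ¬ (3 : ℤ) ∣ d := by
      rcases hm3 with h | h
      · exact h.2.1
      · exact absurd h3m h.2.2
    have hT1' : T = 1 := by
      rcases hT with h | h
      · exact h
      · exfalso
        apply h3n
        rw [hn₀, h]
        exact ⟨s * c₂, by push_cast; ring⟩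
    have := hsc3 (hT1 hT1' h3d)
    rw [hn₀, hT1']
    push_cast
    rw [mul_one]
    exact this
  have hL4b : (3 : ℤ) ∣ m → (3 : ℤ) ∣ n₀ → (-(m / 3) * (n₀ / 3)) % 3 = 1 := by
    intro h3m h3n
    have hT3' := h3n₀ h3n
    obtain ⟨h3d, hiff⟩ := hT3 hT3'
    have hk1 : k₃ = 1 := by
      rcases hm3 with h | h
      · exact h.1
      · exact absurd h.2.1 h3d
    have e1 : m / 3 = -d := by
      have : m = 3 * (-d) := by rw [hk1] at hmk; linarith
      rw [this]
      exact Int.mul_ediv_cancel_left _ (by norm_num)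
    have e2 : n₀ / 3 = s * c₂ := by
      have : n₀ = 3 * (s * c₂) := by rw [hn₀, hT3']; push_cast; ring
      rw [this]
      exact Int.mul_ediv_cancel_left _ (by norm_num)
    have hd3' : d % 3 = 2 := by
      have h1 : d % 3 ≠ 1 := fun h => hiff (hLam h)
      omega
    have h2 := hsc3' hiff
    rw [e1, e2, neg_neg, Int.mul_emod, hd3', h2]
    norm_num
  obtain ⟨q, hqp, hq3, X, Y, Z, hZ, hE⟩ :=
    core_abs769 m n₀ hmsq hn₀sq hm1 hsign hL1 hL3 hL4a hL4b
  -- `c = c' n`, `n` a norm from `ℚ(√-3)`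
  have hc'0 : ((s * c₂ : ℤ) : ℚ) ≠ 0 := by
    have : s * (c₂ : ℤ) ≠ 0 := by
      rcases hs with h | h <;> rw [h] <;> simp <;> omega
    exact_mod_cast this
  have hn : NormCondF438 (c / ((s * c₂ : ℤ) : ℚ)) := by
    constructor
    · by_cases h : 0 < c
      · have hs1 : s = 1 := hspos.mpr h
        rw [hs1]
        have : (0 : ℚ) < ((1 * (c₂ : ℤ) : ℤ) : ℚ) := by
          have : (0 : ℤ) < 1 * (c₂ : ℤ) := by omega
          exact_mod_cast this
        exact div_pos h this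
      · have hs1 : s = -1 := by
          rcases hs with h' | h'
          · exact absurd (hspos.mp h') h
          · exact h'
        rw [hs1]
        have h1 : ((-1 * (c₂ : ℤ) : ℤ) : ℚ) < 0 := by
          have : -1 * (c₂ : ℤ) < 0 := by omega
          exact_mod_cast this
        have h2 : c < 0 := lt_of_le_of_ne (not_lt.mp h) hc
        exact div_pos_of_neg_of_neg h2 h1
    · intro p hp hp3
      have : Fact p.Prime := ⟨hp⟩
      rw [padicValRat.div hc hc'0, padicValRat.of_int, padicValInt]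
      have e : (s * (c₂ : ℤ)).natAbs = c₂ := by
        rw [Int.natAbs_mul, Int.natAbs_natCast]
        rcases hs with h | h <;> rw [h] <;> simp
      rw [e, hc₂val p hp]
      by_cases hpP : p ∈ P
      · rw [if_pos hpP]
        obtain ⟨k, hk⟩ := ((hPmem p).mp hpP).2.2
        exact ⟨k, by rw [hk]; push_cast; ring⟩
      · rw [if_neg hpP]
        have : ¬ Odd (padicValRat p c) := fun h => hpP ((hPmem p).mpr ⟨hp, hp3, h⟩)
        have := Int.not_odd_iff_even.mp this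
        simpa using this
  obtain ⟨a₀, b₀, hab₀⟩ := hF _ hn
  -- `t = T q` is a norm from `ℚ(√-3)`
  have ht : NormCondF438 (((T * q : ℕ) : ℚ)) := by
    constructor
    · have : 0 < T * q := Nat.mul_pos hT0 hqp.pos
      exact_mod_cast this
    · intro p hp hp3
      rw [padicValRat.of_nat]
      have : ¬ p ∣ T * q := by
        intro h
        rcases (Nat.Prime.dvd_mul hp).mp h with h' | h'
        · rcases hT with h'' | h'' <;> rw [h''] at h'
          · exact hp.one_lt.ne' (Nat.dvd_one.mp h')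
          · have := (Nat.prime_dvd_prime_iff_eq hp Nat.prime_three).mp h'
            omega
        · have := (Nat.prime_dvd_prime_iff_eq hp hqp).mp h'
          omega
      rw [padicValNat.eq_zero_of_not_dvd this]
      simp
  obtain ⟨a₁, b₁, hab₁⟩ := hF _ ht
  -- the solution
  have hZq : (Z : ℚ) ≠ 0 := by exact_mod_cast hZ
  have hkq : (k₃ : ℚ) ≠ 0 := by
    rcases hk₃ with h | h <;> rw [h] <;> norm_num
  have hEq : (X : ℚ) ^ 2 = m * Y ^ 2 + n₀ * q * Z ^ 2 := by exact_mod_cast hE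
  have hmkq : -3 * (d : ℚ) = m * k₃ ^ 2 := by exact_mod_cast hmk
  have hn₀q : (n₀ : ℚ) = ((s * c₂ : ℤ) : ℚ) * T := by rw [hn₀]; push_cast; ring
  have hcn : c = ((s * c₂ : ℤ) : ℚ) * (a₀ ^ 2 + 3 * b₀ ^ 2) := by
    rw [← hab₀]
    field_simp
  have hval : ((X : ℚ) / Z) ^ 2 + 3 * (d : ℚ) * ((Y : ℚ) / (k₃ * Z)) ^ 2 =
      ((s * c₂ : ℤ) : ℚ) * (a₁ ^ 2 + 3 * b₁ ^ 2) := by
    rw [← hab₁]
    have h3d : 3 * (d : ℚ) = -(m * k₃ ^ 2) := by linarith
    rw [h3d]
    field_simp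
    rw [hn₀q] at hEq
    push_cast at hEq ⊢
    linear_combination hEq
  refine ⟨((s * c₂ : ℤ) : ℚ) * (a₀ * a₁ - 3 * b₀ * b₁), ((s * c₂ : ℤ) : ℚ) * (a₀ * b₁ + a₁ * b₀),
    (X : ℚ) / Z, (Y : ℚ) / (k₃ * Z), ?_, ?_⟩
  · by_contra hcon
    rw [not_or, not_not, not_not] at hcon
    obtain ⟨he, hf⟩ := hcon
    rw [he, hf] at hval
    have h1 : ((s * c₂ : ℤ) : ℚ) * (a₁ ^ 2 + 3 * b₁ ^ 2) = 0 := by
      rw [← hval]
      ring
    rw [← hab₁] at h1
    rcases mul_eq_zero.mp h1 with h | h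
    · exact hc'0 h
    · have : (0 : ℚ) < ((T * q : ℕ) : ℚ) := ht.1
      linarith
  · rw [hval]
    conv_lhs => rw [hcn]
    ring

end Fermat.Agent.LT.T6.H769
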