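import Fermat.Agent.LT.T6.H166.NormF
import Fermat.Agent.LT.T6.H769.Core

/-!
# Row LT, T6.00q.7 `CoreC438` (helper769, OFF-MAIN): unconditional form

`coreC_uncond769 : CoreC438`, from `coreC769 : NormFC438 → CoreC438` and helper166's
`normFC166 : NormFC438` (vendored byte copy of `LT/T6/H166/NormF.lean`).
-/

set_option autoImplicit false

namespace Fermat.Agent.LT.T6.H769

/-- **Leaf T6.00q.7 (CORE)**, unconditional. -/
theorem coreC_uncond769 : Fermat.Agent.LT.T6.H438.CoreC438 :=
  coreC769 Fermat.Agent.LT.T6.H166.normFC166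

end Fermat.Agent.LT.T6.H769
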