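import Fermat.Agent.LT.T6.H769.CoreLeg

/-!
# Row LT, T6.00q.7 `CoreC438` (helper769, OFF-MAIN): the abstract core

`core_abs769`: for squarefree integers `m ≠ 1`, `n₀`, not both negative, satisfying the local
conditions at the odd primes dividing `n₀` but not `m`, at `2` and at `3`, there is a prime
`q ≡ 1 mod 3` such that `X² = m Y² + n₀ q Z²` has an integral solution with `Z ≠ 0`.
(Dirichlet's theorem + Jacobi reciprocity + Legendre's theorem.)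
-/

set_option autoImplicit false

namespace Fermat.Agent.LT.T6.H769

open scoped NumberTheorySymbols

theorem jac_root769 {p : ℕ} (hp : p.Prime) {x : ℤ} (h : J(x | p) = 1) :
    ∃ t : ℤ, (p : ℤ) ∣ t ^ 2 - x := by
  have : Fact p.Prime := ⟨hp⟩
  obtain ⟨y, hy⟩ := ZMod.isSquare_of_jacobiSym_eq_one h
  refine ⟨(y.val : ℤ), ?_⟩
  rw [← ZMod.intCast_zmod_eq_zero_iff_dvd]
  push_cast
  rw [ZMod.natCast_zmod_val, hy]
  ring

theorem jac_sq_of_dvd769 {N : ℕ} {x y : ℤ} (h : (N : ℤ) ∣ x - y ^ 2) (hc : IsCoprime y N) :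
    J(x | N) = 1 := by
  rw [jacobiSym.mod_left' (a₂ := y ^ 2)]
  · apply jacobiSym.sq_one'
    rw [← Int.isCoprime_iff_gcd_eq_one]
    exact hc
  · exact (Int.modEq_iff_dvd.mpr h).symm

theorem coprime_of_dvd_sub769 {M r r' : ℤ} (h : M ∣ r - r') (hc : IsCoprime r' M) :
    IsCoprime r M := by
  obtain ⟨k, hk⟩ := h
  have : r = r' + M * k := by linarith
  rw [this]
  exact hc.add_mul_left_left k

/-- Splitting off the gcd of two squarefree integers. -/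
theorem gcd_split769 (m n : ℤ) (hm : Squarefree m) (hn : Squarefree n) :
    ∃ (g : ℕ) (m₁ n₁ : ℤ), 0 < g ∧ m = g * m₁ ∧ n = g * n₁ ∧ IsCoprime m₁ n₁ ∧
      IsCoprime (g : ℤ) m₁ ∧ IsCoprime (g : ℤ) n₁ := by
  obtain ⟨m₁, hm₁⟩ := Int.gcd_dvd_left m n
  obtain ⟨n₁, hn₁⟩ := Int.gcd_dvd_right m n
  have hg : 0 < Int.gcd m n := Int.gcd_pos_of_ne_zero_left n hm.ne_zero
  refine ⟨Int.gcd m n, m₁, n₁, hg, hm₁, hn₁, ?_, ?_, ?_⟩
  · rw [Int.isCoprime_iff_gcd_eq_one]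
    have h0 : Int.gcd ((Int.gcd m n : ℤ) * m₁) ((Int.gcd m n : ℤ) * n₁) = Int.gcd m n := by
      rw [← hm₁, ← hn₁]
    have h1 : Int.gcd m n = Int.gcd m n * Int.gcd m₁ n₁ := by
      rw [Int.gcd_mul_left] at h0
      simpa using h0.symm
    have h2 : Int.gcd m n * 1 = Int.gcd m n * Int.gcd m₁ n₁ := by rw [mul_one]; exact h1
    exact (Nat.eq_of_mul_eq_mul_left hg h2).symm
  · rw [hm₁] at hm
    exact (squarefree_mul_iff.mp hm).1.isCoprime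
  · rw [hn₁] at hn
    exact (squarefree_mul_iff.mp hn).1.isCoprime

theorem crt4_769 (M₁ M₂ M₃ M₄ : ℤ) (h12 : IsCoprime M₁ M₂) (h13 : IsCoprime M₁ M₃)
    (h14 : IsCoprime M₁ M₄) (h23 : IsCoprime M₂ M₃) (h24 : IsCoprime M₂ M₄)
    (h34 : IsCoprime M₃ M₄) (r₁ r₂ r₃ r₄ : ℤ) :
    ∃ r : ℤ, M₁ ∣ r - r₁ ∧ M₂ ∣ r - r₂ ∧ M₃ ∣ r - r₃ ∧ M₄ ∣ r - r₄ := by
  obtain ⟨x, hx1, hx2⟩ := crt769 M₁ M₂ h12 r₁ r₂
  obtain ⟨y, hy1, hy2⟩ := crt769 (M₁ * M₂) M₃ (h13.mul_left h23) x r₃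
  obtain ⟨r, hr1, hr2⟩ := crt769 (M₁ * M₂ * M₃) M₄ ((h14.mul_left h24).mul_left h34) y r₄
  have a1 : M₁ ∣ r - y := dvd_trans ⟨M₂ * M₃, by ring⟩ hr1
  have a2 : M₂ ∣ r - y := dvd_trans ⟨M₁ * M₃, by ring⟩ hr1
  have a3 : M₃ ∣ r - y := dvd_trans ⟨M₁ * M₂, by ring⟩ hr1
  have b1 : M₁ ∣ y - x := dvd_trans ⟨M₂, by ring⟩ hy1
  have b2 : M₂ ∣ y - x := dvd_trans ⟨M₁, by ring⟩ hy1
  refine ⟨r, ?_, ?_, ?_, hr2⟩
  · have : r - r₁ = (r - y) + (y - x) + (x - r₁) := by ring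
    rw [this]
    exact dvd_add (dvd_add a1 b1) hx1
  · have : r - r₂ = (r - y) + (y - x) + (x - r₂) := by ring
    rw [this]
    exact dvd_add (dvd_add a2 b2) hx2
  · have : r - r₃ = (r - y) + (y - r₃) := by ring
    rw [this]
    exact dvd_add a3 hy2

theorem sgn_cases769 (t : Bool) : sgn769 t = 1 ∨ sgn769 t = -1 := by
  cases t <;> simp [sgn769]

/-- An odd prime dividing `e · 2^i · o` (`e = ± 1`) divides `o`. -/
theorem odd_prime_dvd769 {p : ℕ} (hp : p.Prime) (hp2 : p ≠ 2) {t : Bool} {i o : ℕ} {x : ℤ}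
    (hx : x = sgn769 t * 2 ^ i * o) (h : (p : ℤ) ∣ x) : (p : ℤ) ∣ o := by
  have hpz : Prime (p : ℤ) := Nat.prime_iff_prime_int.mp hp
  rw [hx] at h
  rcases hpz.dvd_or_dvd h with h1 | h1
  · rcases hpz.dvd_or_dvd h1 with h2 | h2
    · exfalso
      rcases sgn_cases769 t with e | e <;> rw [e] at h2
      · exact hpz.not_dvd_one h2
      · exact hpz.not_dvd_one ((dvd_neg).mp h2)
    · exfalso
      have h3 := hpz.dvd_of_dvd_pow h2
      have h4 : p ∣ 2 := by exact_mod_cast h3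
      exact hp2 ((Nat.prime_dvd_prime_iff_eq hp Nat.prime_two).mp h4)
  · exact h1

end Fermat.Agent.LT.T6.H769
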