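import Mathlib

/-!
# Row LT, T6.00q.7 `CoreC438` (helper769, OFF-MAIN): reciprocity bookkeeping

The "ternary product formula": for pairwise coprime odd `a, b, c`, signs `eB, eC` and exponents
`i, j, k`, with `A = 2^i a`, `B = eB 2^j b`, `C = eC 2^k c`,

    J(-BC | a) · J(-CA | b) · J(-AB | c) = F8(a, b, c mod 8, signs, exponents)

(`lemmaT769`), and the finite `2`-adic lemma `omega769`: the class of `c` modulo `8` can be chosen
so that `F8 = 1`.  Mathlib only.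
-/

set_option autoImplicit false

namespace Fermat.Agent.LT.T6.H769

open scoped NumberTheorySymbols

/-- `χ₄` on odd naturals. -/
def x4_769 (n : ℕ) : ℤ := if n % 4 = 1 then 1 else -1

/-- `χ₈` on odd naturals. -/
def x8_769 (n : ℕ) : ℤ := if n % 8 = 1 ∨ n % 8 = 7 then 1 else -1

/-- The reciprocity sign. -/
def rr769 (a b : ℕ) : ℤ := if a % 4 = 3 ∧ b % 4 = 3 then -1 else 1

/-- `J(e | n)` for `e = ± 1`. -/
def sg769 (e : ℤ) (n : ℕ) : ℤ := if e = 1 then 1 else x4_769 n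

theorem jac_neg_one769 {n : ℕ} (hn : n % 2 = 1) : J(-1 | n) = x4_769 n := by
  rw [jacobiSym.at_neg_one (Nat.odd_iff.mpr hn), ZMod.χ₄_nat_eq_if_mod_four, x4_769]
  simp [hn]

theorem jac_two769 {n : ℕ} (hn : n % 2 = 1) : J(2 | n) = x8_769 n := by
  rw [jacobiSym.at_two (Nat.odd_iff.mpr hn), ZMod.χ₈_nat_eq_if_mod_eight, x8_769]
  simp [hn]

theorem jac_sg769 {e : ℤ} (he : e = 1 ∨ e = -1) {n : ℕ} (hn : n % 2 = 1) :
    J(e | n) = sg769 e n := by
  rcases he with rfl | rfl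
  · simp [sg769, jacobiSym.one_left]
  · rw [jac_neg_one769 hn]
    simp [sg769]

theorem jac_rr769 {a b : ℕ} (ha : a % 2 = 1) (hb : b % 2 = 1) (h : a.Coprime b) :
    J(a | b) * J(b | a) = rr769 a b := by
  have h1 := jacobiSym.quadratic_reciprocity_if ha hb
  have h2 : J((b : ℤ) | a) ^ 2 = 1 := by
    apply jacobiSym.sq_one
    rw [Int.gcd_natCast_natCast]
    exact h.symm
  rw [← h1, rr769]
  split_ifs
  · linear_combination (-1 : ℤ) * h2
  · linear_combination h2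

/-- The explicit right-hand side of the product formula. -/
def F8_769 (a b c : ℕ) (eB eC : ℤ) (i j k : ℕ) : ℤ :=
  sg769 (-eB * eC) a * sg769 (-eC) b * sg769 (-eB) c *
    x8_769 a ^ (j + k) * x8_769 b ^ (k + i) * x8_769 c ^ (i + j) *
    rr769 a b * rr769 a c * rr769 b c

/-- **Ternary product formula.** -/
theorem lemmaT769 (a b c : ℕ) (ha : a % 2 = 1) (hb : b % 2 = 1) (hc : c % 2 = 1)
    (hab : a.Coprime b) (hac : a.Coprime c) (hbc : b.Coprime c)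
    (eB eC : ℤ) (heB : eB = 1 ∨ eB = -1) (heC : eC = 1 ∨ eC = -1) (i j k : ℕ) :
    J(-(eB * 2 ^ j * b) * (eC * 2 ^ k * c) | a) * J(-(eC * 2 ^ k * c) * (2 ^ i * a) | b) *
      J(-(2 ^ i * a) * (eB * 2 ^ j * b) | c) = F8_769 a b c eB eC i j k := by
  obtain ⟨E1, hE1, s1⟩ : ∃ E1 : ℤ, E1 = -eB * eC ∧ (E1 = 1 ∨ E1 = -1) := by
    refine ⟨_, rfl, ?_⟩
    rcases heB with rfl | rfl <;> rcases heC with rfl | rfl <;> simp
  obtain ⟨E2, hE2, s2⟩ : ∃ E2 : ℤ, E2 = -eC ∧ (E2 = 1 ∨ E2 = -1) := by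
    refine ⟨_, rfl, ?_⟩
    rcases heC with rfl | rfl <;> simp
  obtain ⟨E3, hE3, s3⟩ : ∃ E3 : ℤ, E3 = -eB ∧ (E3 = 1 ∨ E3 = -1) := by
    refine ⟨_, rfl, ?_⟩
    rcases heB with rfl | rfl <;> simp
  have e1 : -(eB * 2 ^ j * (b : ℤ)) * (eC * 2 ^ k * c) = E1 * 2 ^ (j + k) * b * c := by
    rw [hE1]
    ring
  have e2 : -(eC * 2 ^ k * (c : ℤ)) * (2 ^ i * a) = E2 * 2 ^ (k + i) * c * a := by
    rw [hE2]
    ring
  have e3 : -(2 ^ i * (a : ℤ)) * (eB * 2 ^ j * b) = E3 * 2 ^ (i + j) * a * b := by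
    rw [hE3]
    ring
  rw [e1, e2, e3]
  simp only [jacobiSym.mul_left, jacobiSym.pow_left]
  rw [jac_sg769 s1 ha, jac_sg769 s2 hb, jac_sg769 s3 hc, jac_two769 ha, jac_two769 hb,
    jac_two769 hc, F8_769, ← jac_rr769 ha hb hab, ← jac_rr769 ha hc hac, ← jac_rr769 hb hc hbc,
    ← hE1, ← hE2, ← hE3]
  ring

theorem x4_mod8_769 (n : ℕ) : x4_769 (n % 8) = x4_769 n := by
  unfold x4_769
  rw [Nat.mod_mod_of_dvd n (by norm_num : 4 ∣ 8)]

theorem x8_mod8_769 (n : ℕ) : x8_769 (n % 8) = x8_769 n := by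
  unfold x8_769
  rw [Nat.mod_mod]

theorem rr_mod8_769 (a b : ℕ) : rr769 (a % 8) (b % 8) = rr769 a b := by
  unfold rr769
  rw [Nat.mod_mod_of_dvd a (by norm_num : 4 ∣ 8), Nat.mod_mod_of_dvd b (by norm_num : 4 ∣ 8)]

theorem sg_mod8_769 (e : ℤ) (n : ℕ) : sg769 e (n % 8) = sg769 e n := by
  unfold sg769
  rw [x4_mod8_769]

theorem F8_mod8_769 (a b c : ℕ) (eB eC : ℤ) (i j k : ℕ) :
    F8_769 (a % 8) (b % 8) (c % 8) eB eC i j k = F8_769 a b c eB eC i j k := by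
  unfold F8_769
  simp only [sg_mod8_769, x8_mod8_769, rr_mod8_769]

/-- Signs as booleans. -/
def sgn769 (t : Bool) : ℤ := if t then 1 else -1

/-- The finite check, as a boolean. -/
def omegaChk769 (a b c : ℕ) (tB tC : Bool) (t : ℕ) : Bool :=
  decide (a % 2 = 1 → b % 2 = 1 → c % 2 = 1 → ¬ (tB = true ∧ tC = true) →
    (t = 3 → (tB = true → (a * b) % 8 ≠ 3) ∧ (tB = false → (a * b) % 8 ≠ 5)) →
    ∃ u < 8, u % 2 = 1 ∧
      F8_769 a b ((c * u) % 8) (sgn769 tB) (sgn769 tC)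
        (if t = 1 then 1 else 0) (if t = 2 then 1 else 0) (if t = 3 then 1 else 0) = 1)

theorem omega_all769 : ∀ a < 8, ∀ b < 8, ∀ c < 8, ∀ t < 4, ∀ tB tC : Bool,
    omegaChk769 a b c tB tC t = true := by
  decide +kernel

/-- **The finite `2`-adic lemma**: the class of `q` modulo `8` can be chosen with `F8 = 1`. -/
theorem omega769 (a b c3 : ℕ) (ha : a % 2 = 1) (hb : b % 2 = 1) (hc : c3 % 2 = 1)
    (tB tC : Bool) (hsign : ¬ (tB = true ∧ tC = true)) (t : ℕ) (ht : t < 4)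
    (h2 : t = 3 → (tB = true → (a * b) % 8 ≠ 3) ∧ (tB = false → (a * b) % 8 ≠ 5)) :
    ∃ u < 8, u % 2 = 1 ∧ ∀ q : ℕ, q % 8 = u →
      F8_769 a b (c3 * q) (sgn769 tB) (sgn769 tC)
        (if t = 1 then 1 else 0) (if t = 2 then 1 else 0) (if t = 3 then 1 else 0) = 1 := by
  have h := omega_all769 (a % 8) (Nat.mod_lt _ (by norm_num)) (b % 8) (Nat.mod_lt _ (by norm_num))
    (c3 % 8) (Nat.mod_lt _ (by norm_num)) t ht tB tC
  unfold omegaChk769 at h
  rw [decide_eq_true_eq] at h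
  have e2 : ∀ n : ℕ, n % 8 % 2 = n % 2 := fun n => Nat.mod_mod_of_dvd n (by norm_num)
  have e3 : (a % 8) * (b % 8) % 8 = (a * b) % 8 := (Nat.mul_mod a b 8).symm
  rw [e2, e2, e2, e3] at h
  obtain ⟨u, hu8, hu2, hu⟩ := h ha hb hc hsign h2
  refine ⟨u, hu8, hu2, fun q hq => ?_⟩
  rw [← F8_mod8_769, Nat.mul_mod c3 q 8, hq]
  exact hu

/-- `J(-3 | p) = -1` for odd `p ≡ 2 mod 3`. -/
theorem jac_neg_three769 {p : ℕ} (hp2 : p % 2 = 1) (hp3 : p % 3 = 2) : J(-3 | p) = -1 := by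
  have h1 : (-3 : ℤ) = (-1) * ((3 : ℕ) : ℤ) := by norm_num
  have h3 : J(((p : ℕ) : ℤ) | 3) = -1 := by
    rw [jacobiSym.mod_left]
    have : ((p : ℤ) % ((3 : ℕ) : ℤ)) = 2 := by
      have : ((p % 3 : ℕ) : ℤ) = 2 := by rw [hp3]; rfl
      rw [← this]
      push_cast
      rfl
    rw [this, jac_two769 (by norm_num)]
    decide
  have h4 := jacobiSym.quadratic_reciprocity_if (a := 3) (b := p) (by norm_num) hp2
  rw [h1, jacobiSym.mul_left, jac_neg_one769 hp2, ← h4, h3, x4_769]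
  rcases Nat.odd_mod_four_iff.mp hp2 with h | h
  · simp [h]
  · simp [h]

/-- If `J(x | p) = 1` at every prime divisor of `N`, then `J(x | N) = 1`. -/
theorem jac_one_of_primes769 (x : ℤ) (N : ℕ)
    (h : ∀ p : ℕ, p.Prime → p ∣ N → J(x | p) = 1) : J(x | N) = 1 := by
  induction N using Nat.recOnPrimeCoprime with
  | zero => exact jacobiSym.zero_right x
  | prime_pow p n hp =>
    rcases Nat.eq_zero_or_pos n with rfl | hn
    · simp [jacobiSym.one_right]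
    · rw [jacobiSym.pow_right, h p hp (dvd_pow_self p hn.ne'), one_pow]
  | coprime a b ha hb _ iha ihb =>
    rw [jacobiSym.mul_right' x (by omega) (by omega),
      iha (fun p hp hpa => h p hp (hpa.mul_right b)),
      ihb (fun p hp hpb => h p hp (hpb.mul_left a)), one_mul]

end Fermat.Agent.LT.T6.H769
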