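import Fermat.Agent.LT.HM.H769.Legendre
import Fermat.Agent.LT.T6.H769.CoreRecip

/-!
# Row LT, T6.00q.7 `CoreC438` (helper769, OFF-MAIN): Legendre's theorem with signs, CRT

* `crt769`: the Chinese remainder theorem over `ℤ`;
* `sq_crt769`: a number which is a square modulo every odd prime divisor of a squarefree `N` is a
  square modulo `N`;
* `glegendre769`: Legendre's theorem `g x² = m₁ y² + n₁ z²` for `g > 0` and `m₁, n₁` of any signs,
  not both negative;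
* `odd_decomp769`: `x = ± 2^i · odd`.
-/

set_option autoImplicit false

namespace Fermat.Agent.LT.T6.H769

open Fermat.Agent.LT.HM.H769

theorem crt769 (M₁ M₂ : ℤ) (h : IsCoprime M₁ M₂) (r₁ r₂ : ℤ) :
    ∃ r : ℤ, M₁ ∣ r - r₁ ∧ M₂ ∣ r - r₂ := by
  obtain ⟨u, v, huv⟩ := h
  refine ⟨r₁ * v * M₂ + r₂ * u * M₁, ⟨u * (r₂ - r₁), ?_⟩, ⟨v * (r₁ - r₂), ?_⟩⟩
  · linear_combination r₁ * huv
  · linear_combination r₂ * huv

theorem two_dvd_sq_sub769 (x : ℤ) : (2 : ℤ) ∣ x ^ 2 - x := by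
  have h : x ^ 2 - x = x * (x - 1) := by ring
  rw [h]
  exact (Int.even_mul_pred_self x).two_dvd

theorem sq_crt769 (x : ℤ) (N : ℕ) (hN : Squarefree N)
    (h : ∀ p : ℕ, p.Prime → p ≠ 2 → p ∣ N → ∃ t : ℤ, (p : ℤ) ∣ t ^ 2 - x) :
    ∃ t : ℤ, (N : ℤ) ∣ t ^ 2 - x := by
  induction N using Nat.recOnPrimeCoprime with
  | zero => exact absurd hN not_squarefree_zero
  | prime_pow p n hp =>
    rcases hN.eq_zero_or_one_of_pow_of_not_isUnit hp.prime.not_isUnit with rfl | rfl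
    · exact ⟨0, by simp⟩
    · rw [pow_one]
      by_cases hp2 : p = 2
      · subst hp2
        exact ⟨x, by exact_mod_cast two_dvd_sq_sub769 x⟩
      · exact h p hp hp2 (by simp)
  | coprime a b ha hb hab iha ihb =>
    obtain ⟨ta, hta⟩ := iha (hN.of_mul_left) (fun p hp hp2 hpa => h p hp hp2 (hpa.mul_right b))
    obtain ⟨tb, htb⟩ := ihb (hN.of_mul_right) (fun p hp hp2 hpb => h p hp hp2 (hpb.mul_left a))
    have hcop : IsCoprime (a : ℤ) (b : ℤ) := Nat.isCoprime_iff_coprime.mpr hab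
    obtain ⟨t, h1, h2⟩ := crt769 a b hcop ta tb
    refine ⟨t, ?_⟩
    push_cast
    apply hcop.mul_dvd
    · have : t ^ 2 - x = (t - ta) * (t + ta) + (ta ^ 2 - x) := by ring
      rw [this]
      exact dvd_add (h1.mul_right _) hta
    · have : t ^ 2 - x = (t - tb) * (t + tb) + (tb ^ 2 - x) := by ring
      rw [this]
      exact dvd_add (h2.mul_right _) htb

/-- **Legendre's theorem with signs.** -/
theorem glegendre769 (g : ℕ) (hg : 0 < g) (m₁ n₁ : ℤ) (hm : m₁ ≠ 0) (hn : n₁ ≠ 0)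
    (hsq : Squarefree (g * m₁.natAbs * n₁.natAbs)) (hsign : ¬ (m₁ < 0 ∧ n₁ < 0))
    (h1 : ∃ t : ℤ, (g : ℤ) ∣ t ^ 2 + m₁ * n₁)
    (h2 : ∃ s : ℤ, m₁ ∣ s ^ 2 - g * n₁)
    (h3 : ∃ r : ℤ, n₁ ∣ r ^ 2 - g * m₁) :
    ∃ x y z : ℤ, (x ≠ 0 ∨ y ≠ 0 ∨ z ≠ 0) ∧ (g : ℤ) * x ^ 2 = m₁ * y ^ 2 + n₁ * z ^ 2 := by
  have hmp : 0 < m₁.natAbs := Int.natAbs_pos.mpr hm
  have hnp : 0 < n₁.natAbs := Int.natAbs_pos.mpr hn
  obtain ⟨t, ht⟩ := h1
  obtain ⟨s, hs⟩ := h2
  obtain ⟨r, hr⟩ := h3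
  rcases lt_or_gt_of_ne hm with hm0 | hm0
  · -- `m₁ < 0`, so `n₁ > 0`
    have hn0 : 0 < n₁ := by
      rcases lt_or_gt_of_ne hn with h | h
      · exact absurd ⟨hm0, h⟩ hsign
      · exact h
    have em : ((m₁.natAbs : ℕ) : ℤ) = -m₁ := by
      rw [Int.natCast_natAbs, abs_of_neg hm0]
    have en : ((n₁.natAbs : ℕ) : ℤ) = n₁ := by
      rw [Int.natCast_natAbs, abs_of_pos hn0]
    have hsq' : Squarefree (n₁.natAbs * g * m₁.natAbs) := by
      have : n₁.natAbs * g * m₁.natAbs = g * m₁.natAbs * n₁.natAbs := by ring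
      rw [this]
      exact hsq
    obtain ⟨x, y, z, hne, he⟩ := legendre769 n₁.natAbs g m₁.natAbs hnp hg hmp hsq'
      ⟨r, by rw [en, em]; convert hr using 1; ring⟩
      ⟨t, by rw [en, em]; convert ht using 1; ring⟩
      ⟨s, by rw [en, em]; exact (Int.neg_dvd).mpr (by convert hs using 1; ring)⟩
    rw [en, em] at he
    refine ⟨y, z, x, ?_, ?_⟩
    · tauto
    · linear_combination -he
  · rcases lt_or_gt_of_ne hn with hn0 | hn0
    · -- `m₁ > 0`, `n₁ < 0`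
      have em : ((m₁.natAbs : ℕ) : ℤ) = m₁ := by
        rw [Int.natCast_natAbs, abs_of_pos hm0]
      have en : ((n₁.natAbs : ℕ) : ℤ) = -n₁ := by
        rw [Int.natCast_natAbs, abs_of_neg hn0]
      have hsq' : Squarefree (m₁.natAbs * g * n₁.natAbs) := by
        have : m₁.natAbs * g * n₁.natAbs = g * m₁.natAbs * n₁.natAbs := by ring
        rw [this]
        exact hsq
      obtain ⟨x, y, z, hne, he⟩ := legendre769 m₁.natAbs g n₁.natAbs hmp hg hnp hsq'
        ⟨s, by rw [en, em]; convert hs using 1; ring⟩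
        ⟨t, by rw [en, em]; convert ht using 1; ring⟩
        ⟨r, by rw [en, em]; exact (Int.neg_dvd).mpr (by convert hr using 1; ring)⟩
      rw [en, em] at he
      refine ⟨y, x, z, ?_, ?_⟩
      · tauto
      · linear_combination -he
    · -- both positive
      have em : ((m₁.natAbs : ℕ) : ℤ) = m₁ := by
        rw [Int.natCast_natAbs, abs_of_pos hm0]
      have en : ((n₁.natAbs : ℕ) : ℤ) = n₁ := by
        rw [Int.natCast_natAbs, abs_of_pos hn0]
      obtain ⟨x, y, z, hne, he⟩ := legendre769 g m₁.natAbs n₁.natAbs hg hmp hnp hsq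
        ⟨t, by rw [en, em]; exact ht⟩
        ⟨s, by rw [em, en]; exact hs⟩
        ⟨r, by rw [en, em]; exact hr⟩
      rw [en, em] at he
      exact ⟨x, y, z, hne, he⟩

/-- `x = ± 2^i · odd`. -/
theorem odd_decomp769 (x : ℤ) (hx : x ≠ 0) :
    ∃ (t : Bool) (i o : ℕ), o % 2 = 1 ∧ x = sgn769 t * 2 ^ i * o ∧ (t = true ↔ 0 < x) := by
  obtain ⟨i, o, ho, he⟩ := Nat.exists_eq_two_pow_mul_odd (Int.natAbs_ne_zero.mpr hx)
  rcases lt_or_gt_of_ne hx with h | h
  · refine ⟨false, i, o, Nat.odd_iff.mp ho, ?_, by simp; omega⟩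
    have : (x.natAbs : ℤ) = -x := by rw [Int.natCast_natAbs, abs_of_neg h]
    have h2 : ((x.natAbs : ℕ) : ℤ) = 2 ^ i * o := by rw [he]; push_cast; ring
    simp only [sgn769]
    rw [this] at h2
    simp
    linarith
  · refine ⟨true, i, o, Nat.odd_iff.mp ho, ?_, by simp; omega⟩
    have : (x.natAbs : ℤ) = x := by rw [Int.natCast_natAbs, abs_of_pos h]
    have h2 : ((x.natAbs : ℕ) : ℤ) = 2 ^ i * o := by rw [he]; push_cast; ring
    simp only [sgn769]
    rw [this] at h2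
    simp
    linarith

/-- The exponent of `2` in a squarefree integer is at most `1`. -/
theorem exp_le_one769 {x e : ℤ} {i o : ℕ} (hx : Squarefree x) (he : x = e * 2 ^ i * o) :
    i = 0 ∨ i = 1 := by
  by_contra hcon
  have hi : 2 ≤ i := by omega
  have h1 : (2 : ℤ) * 2 ∣ x := by
    rw [he]
    obtain ⟨j, rfl⟩ := Nat.exists_eq_add_of_le hi
    exact ⟨e * 2 ^ j * o, by ring⟩
  have := hx 2 h1
  rw [Int.isUnit_iff] at this
  omega

/-- A squarefree integer `≠ 1` is not a rational square. -/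
theorem not_sq769 {m : ℤ} (hm : Squarefree m) (hm1 : m ≠ 1) {X y : ℤ} (h : X ^ 2 = m * y ^ 2) :
    y = 0 := by
  by_contra hy
  have h1 : y ^ 2 ∣ X ^ 2 := ⟨m, by rw [h]; ring⟩
  have h2 : y ∣ X := (Int.pow_dvd_pow_iff (by norm_num)).mp h1
  obtain ⟨w, rfl⟩ := h2
  have h3 : m = w ^ 2 := by
    have hy2 : y ^ 2 ≠ 0 := pow_ne_zero 2 hy
    apply mul_right_cancel₀ hy2
    rw [← h]
    ring
  have h4 : m.natAbs = 1 := by
    apply eq_one_of_squarefree_sq769 (Int.squarefree_natAbs.mpr hm) (w := w)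
    rw [Int.natCast_natAbs, h3, abs_of_nonneg (sq_nonneg w)]
  have h5 : 0 ≤ m := by rw [h3]; exact sq_nonneg w
  apply hm1
  have : (m.natAbs : ℤ) = m := by rw [Int.natCast_natAbs, abs_of_nonneg h5]
  rw [← this, h4]
  rfl

end Fermat.Agent.LT.T6.H769
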