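import Fermat.Agent.LT.T6.H769.CoreAbs

/-!
# Row LT, T6.00q.7 `CoreC438` (helper769, OFF-MAIN): the abstract core, main theorem
-/

set_option autoImplicit false

namespace Fermat.Agent.LT.T6.H769

open scoped NumberTheorySymbols

theorem sqf_neg769 {x : ℤ} (h : Squarefree x) : Squarefree (-x) := by
  rw [← Int.squarefree_natAbs, Int.natAbs_neg, Int.squarefree_natAbs]
  exact h

/-- **The abstract core.** -/
theorem core_abs769 (m n₀ : ℤ) (hm : Squarefree m) (hn : Squarefree n₀) (hm1 : m ≠ 1)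
    (hsign : ¬ (m < 0 ∧ n₀ < 0))
    (hL1 : ∀ p : ℕ, p.Prime → p ≠ 2 → (p : ℤ) ∣ n₀ → ¬ (p : ℤ) ∣ m → J(m | p) = 1)
    (hL3 : (2 : ℤ) ∣ n₀ → ¬ (2 : ℤ) ∣ m → m % 8 ≠ 5)
    (hL4a : (3 : ℤ) ∣ m → ¬ (3 : ℤ) ∣ n₀ → n₀ % 3 = 1)
    (hL4b : (3 : ℤ) ∣ m → (3 : ℤ) ∣ n₀ → (-(m / 3) * (n₀ / 3)) % 3 = 1) :
    ∃ q : ℕ, q.Prime ∧ q % 3 = 1 ∧
      ∃ X Y Z : ℤ, Z ≠ 0 ∧ X ^ 2 = m * Y ^ 2 + n₀ * q * Z ^ 2 := by
  obtain ⟨g, m₁, n₁, hg, hmg, hng, hc_mn, hc_gm, hc_gn⟩ := gcd_split769 m n₀ hm hn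
  have hm0 : m ≠ 0 := hm.ne_zero
  have hn0 : n₀ ≠ 0 := hn.ne_zero
  have hgZ : (0 : ℤ) < g := by exact_mod_cast hg
  have hm₁0 : m₁ ≠ 0 := by
    rintro rfl
    simp at hmg
    exact hm0 hmg
  have hn₁0 : n₁ ≠ 0 := by
    rintro rfl
    simp at hng
    exact hn0 hng
  have hsq_g : Squarefree (g : ℤ) := by
    have := hm
    rw [hmg] at this
    exact (squarefree_mul_iff.mp this).2.1
  have hsq_m₁ : Squarefree m₁ := by
    have := hm
    rw [hmg] at this
    exact (squarefree_mul_iff.mp this).2.2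
  have hsq_n₁ : Squarefree n₁ := by
    have := hn
    rw [hng] at this
    exact (squarefree_mul_iff.mp this).2.2
  -- odd parts
  obtain ⟨i, a, ha, hA⟩ := Nat.exists_eq_two_pow_mul_odd hg.ne'
  obtain ⟨tB, j, b, hb, hB, htB⟩ := odd_decomp769 (-m₁) (neg_ne_zero.mpr hm₁0)
  obtain ⟨tC, k, c₃, hc, hC, htC⟩ := odd_decomp769 (-n₁) (neg_ne_zero.mpr hn₁0)
  have ha2 : a % 2 = 1 := Nat.odd_iff.mp ha
  have hAz : (g : ℤ) = 2 ^ i * a := by rw [hA]; push_cast; ring
  have hAz1 : (g : ℤ) = 1 * 2 ^ i * a := by rw [hAz]; ring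
  have hi := exp_le_one769 hsq_g hAz1
  have hj := exp_le_one769 (sqf_neg769 hsq_m₁) hB
  have hk := exp_le_one769 (sqf_neg769 hsq_n₁) hC
  -- divisibilities
  have ha_g : (a : ℤ) ∣ g := ⟨2 ^ i, by rw [hAz]; ring⟩
  have hb_m : (b : ℤ) ∣ m₁ := (dvd_neg).mp ⟨sgn769 tB * 2 ^ j, by rw [hB]; ring⟩
  have hc_n : (c₃ : ℤ) ∣ n₁ := (dvd_neg).mp ⟨sgn769 tC * 2 ^ k, by rw [hC]; ring⟩
  have hi2 : i = 1 → (2 : ℤ) ∣ g := fun h => ⟨a, by rw [hAz, h]; ring⟩
  have hj2 : j = 1 → (2 : ℤ) ∣ m₁ := fun h =>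
    (dvd_neg).mp ⟨sgn769 tB * b, by rw [hB, h]; ring⟩
  have hk2 : k = 1 → (2 : ℤ) ∣ n₁ := fun h =>
    (dvd_neg).mp ⟨sgn769 tC * c₃, by rw [hC, h]; ring⟩
  have h2unit : ¬ IsUnit (2 : ℤ) := by
    rw [Int.isUnit_iff]
    omega
  have hij : ¬ (i = 1 ∧ j = 1) := fun ⟨h1, h2⟩ =>
    h2unit (hc_gm.isUnit_of_dvd' (hi2 h1) (hj2 h2))
  have hik : ¬ (i = 1 ∧ k = 1) := fun ⟨h1, h2⟩ =>
    h2unit (hc_gn.isUnit_of_dvd' (hi2 h1) (hk2 h2))
  have hjk : ¬ (j = 1 ∧ k = 1) := fun ⟨h1, h2⟩ =>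
    h2unit (hc_mn.isUnit_of_dvd' (hj2 h1) (hk2 h2))
  obtain ⟨t, ht4, hit, hjt, hkt⟩ : ∃ t < 4, i = (if t = 1 then 1 else 0) ∧
      j = (if t = 2 then 1 else 0) ∧ k = (if t = 3 then 1 else 0) := by
    rcases hi with hi | hi <;> rcases hj with hj | hj <;> rcases hk with hk | hk
    · exact ⟨0, by norm_num, by simp [hi], by simp [hj], by simp [hk]⟩
    · exact ⟨3, by norm_num, by simp [hi], by simp [hj], by simp [hk]⟩
    · exact ⟨2, by norm_num, by simp [hi], by simp [hj], by simp [hk]⟩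
    · exact absurd ⟨hj, hk⟩ hjk
    · exact ⟨1, by norm_num, by simp [hi], by simp [hj], by simp [hk]⟩
    · exact absurd ⟨hi, hk⟩ hik
    · exact absurd ⟨hi, hj⟩ hij
    · exact absurd ⟨hi, hj⟩ hij
  -- coprimalities
  have hca_m : IsCoprime (a : ℤ) m₁ := hc_gm.of_isCoprime_of_dvd_left ha_g
  have hca_n : IsCoprime (a : ℤ) n₁ := hc_gn.of_isCoprime_of_dvd_left ha_g
  have hcb_n : IsCoprime (b : ℤ) n₁ := hc_mn.of_isCoprime_of_dvd_left hb_m
  have hcb_g : IsCoprime (b : ℤ) g := hc_gm.symm.of_isCoprime_of_dvd_left hb_m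
  have hcc_g : IsCoprime (c₃ : ℤ) g := hc_gn.symm.of_isCoprime_of_dvd_left hc_n
  have hcc_m : IsCoprime (c₃ : ℤ) m₁ := hc_mn.symm.of_isCoprime_of_dvd_left hc_n
  have hab : a.Coprime b := Nat.isCoprime_iff_coprime.mp (hca_m.of_isCoprime_of_dvd_right hb_m)
  have hac : a.Coprime c₃ := Nat.isCoprime_iff_coprime.mp (hca_n.of_isCoprime_of_dvd_right hc_n)
  have hbc : b.Coprime c₃ := Nat.isCoprime_iff_coprime.mp (hcb_n.of_isCoprime_of_dvd_right hc_n)
  -- signs
  have hsign' : ¬ (tB = true ∧ tC = true) := by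
    rintro ⟨h1, h2⟩
    have h3 : m₁ < 0 := by have := htB.mp h1; linarith
    have h4 : n₁ < 0 := by have := htC.mp h2; linarith
    apply hsign
    constructor
    · rw [hmg]; exact mul_neg_of_pos_of_neg hgZ h3
    · rw [hng]; exact mul_neg_of_pos_of_neg hgZ h4
  -- the `2`-adic constraint
  have h2adic : t = 3 → (tB = true → (a * b) % 8 ≠ 3) ∧ (tB = false → (a * b) % 8 ≠ 5) := by
    intro ht3
    have hk1 : k = 1 := by rw [hkt]; simp [ht3]
    have hi0 : i = 0 := by rw [hit]; simp [ht3]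
    have hj0 : j = 0 := by rw [hjt]; simp [ht3]
    have h2n : (2 : ℤ) ∣ n₀ := by rw [hng]; exact (hk2 hk1).mul_left _
    have hmE : m = -(sgn769 tB * ((a * b : ℕ) : ℤ)) := by
      rw [hmg, hAz, hi0]
      have : m₁ = -(sgn769 tB * 2 ^ j * b) := by linarith
      rw [this, hj0]
      push_cast
      ring
    have hab2 : (a * b) % 2 = 1 := by
      rw [Nat.mul_mod, ha2, hb]
    have h2m : ¬ (2 : ℤ) ∣ m := by
      rw [hmE]
      rcases sgn_cases769 tB with e | e <;> rw [e] <;> omega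
    have h5 := hL3 h2n h2m
    rw [hmE] at h5
    constructor
    · intro htt
      rw [htt] at h5
      simp only [sgn769, if_true] at h5
      omega
    · intro htt
      rw [htt] at h5
      simp only [sgn769] at h5
      norm_num at h5
      omega
  obtain ⟨u, hu8, hu2, hu⟩ := omega769 a b c₃ ha2 hb hc tB tC hsign' t ht4 h2adic
  -- the modulus at `3`
  have h3p : Prime (3 : ℤ) := by
    have := Nat.prime_iff_prime_int.mp Nat.prime_three
    exact_mod_cast this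
  obtain ⟨w, hw, hwa, hwb, hw1⟩ : ∃ w : ℕ, (w = 1 ∨ w = 3) ∧ IsCoprime (w : ℤ) a ∧
      IsCoprime (w : ℤ) b ∧ (w = 1 ↔ (3 : ℤ) ∣ m) := by
    by_cases h3 : (3 : ℤ) ∣ m
    · refine ⟨1, Or.inl rfl, ?_, ?_, by simp [h3]⟩
      · push_cast
        exact isCoprime_one_left
      · push_cast
        exact isCoprime_one_left
    · refine ⟨3, Or.inr rfl, ?_, ?_, by simp [h3]⟩
      · push_cast
        rw [h3p.coprime_iff_not_dvd]
        intro h
        exact h3 (by rw [hmg]; exact (h.trans ha_g).mul_right _)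
      · push_cast
        rw [h3p.coprime_iff_not_dvd]
        intro h
        exact h3 (by rw [hmg]; exact (h.trans hb_m).mul_left _)
  -- the residue class
  have h2p : Prime (2 : ℤ) := by
    have := Nat.prime_iff_prime_int.mp Nat.prime_two
    exact_mod_cast this
  have h2odd : ∀ n : ℕ, n % 2 = 1 → IsCoprime (8 : ℤ) n := by
    intro n hn
    have h1 : IsCoprime (2 : ℤ) n := by
      rw [h2p.coprime_iff_not_dvd]
      omega
    have h2 := h1.pow_left (m := 3)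
    norm_num at h2
    exact h2
  have h8w : IsCoprime (8 : ℤ) w := by
    rcases hw with rfl | rfl
    · push_cast
      exact isCoprime_one_right
    · exact h2odd 3 (by norm_num)
  have hab' : IsCoprime (a : ℤ) b := Nat.isCoprime_iff_coprime.mpr hab
  obtain ⟨r, hr8, hrw, hra, hrb⟩ :=
    crt4_769 8 w a b h8w (h2odd a ha2) (h2odd b hb) hwa hwb hab' u 1 (-(m₁ * n₁)) n₀
  have hcn₀b : IsCoprime n₀ (b : ℤ) := by
    rw [hng]
    exact (hcb_g.symm).mul_left hcb_n.symm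
  have hcmna : IsCoprime (m₁ * n₁) (a : ℤ) := hca_m.symm.mul_left hca_n.symm
  have hr_8 : IsCoprime r 8 := coprime_of_dvd_sub769 hr8 (h2odd u hu2).symm
  have hr_w : IsCoprime r w := coprime_of_dvd_sub769 hrw isCoprime_one_left
  have hr_a : IsCoprime r a := coprime_of_dvd_sub769 hra hcmna.neg_left
  have hr_b : IsCoprime r b := coprime_of_dvd_sub769 hrb hcn₀b
  have ha0 : a ≠ 0 := by rintro rfl; simp at ha2
  have hb0 : b ≠ 0 := by rintro rfl; simp at hb
  have hc0 : c₃ ≠ 0 := by rintro rfl; simp at hc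
  have hw0 : w ≠ 0 := by rcases hw with rfl | rfl <;> norm_num
  have hN : 8 * w * a * b ≠ 0 := by positivity
  have hcopN : IsCoprime r ((8 * w * a * b : ℕ) : ℤ) := by
    push_cast
    exact ((hr_8.mul_right hr_w).mul_right hr_a).mul_right hr_b
  obtain ⟨q, hqgt, hqp, hqr⟩ :=
    Nat.forall_exists_prime_gt_and_zmodEq (m.natAbs + n₀.natAbs) hN hcopN
  have hd : ((8 * w * a * b : ℕ) : ℤ) ∣ r - q := Int.modEq_iff_dvd.mp hqr
  push_cast at hd
  have q8 : (8 : ℤ) ∣ q - u := by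
    have h1 : (8 : ℤ) ∣ r - q := dvd_trans ⟨w * a * b, by ring⟩ hd
    have : (q : ℤ) - u = (r - u) - (r - q) := by ring
    rw [this]
    exact dvd_sub hr8 h1
  have qw : (w : ℤ) ∣ q - 1 := by
    have h1 : (w : ℤ) ∣ r - q := dvd_trans ⟨8 * a * b, by ring⟩ hd
    have : (q : ℤ) - 1 = (r - 1) - (r - q) := by ring
    rw [this]
    exact dvd_sub hrw h1
  have qa : (a : ℤ) ∣ q + m₁ * n₁ := by
    have h1 : (a : ℤ) ∣ r - q := dvd_trans ⟨8 * w * b, by ring⟩ hd
    have : (q : ℤ) + m₁ * n₁ = (r - -(m₁ * n₁)) - (r - q) := by ring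
    rw [this]
    exact dvd_sub hra h1
  have qb : (b : ℤ) ∣ q - n₀ := by
    have h1 : (b : ℤ) ∣ r - q := dvd_trans ⟨8 * w * a, by ring⟩ hd
    have : (q : ℤ) - n₀ = (r - n₀) - (r - q) := by ring
    rw [this]
    exact dvd_sub hrb h1
  have hq8 : q % 8 = u := by omega
  have hq2 : q % 2 = 1 := by omega
  have hqm : ¬ (q : ℤ) ∣ m := by
    intro h
    have h1 : q ∣ m.natAbs := by
      have := Int.natAbs_dvd_natAbs.mpr h
      simpa using this
    have h2 := Nat.le_of_dvd (Int.natAbs_pos.mpr hm0) h1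
    omega
  have hqn : ¬ (q : ℤ) ∣ n₀ := by
    intro h
    have h1 : q ∣ n₀.natAbs := by
      have := Int.natAbs_dvd_natAbs.mpr h
      simpa using this
    have h2 := Nat.le_of_dvd (Int.natAbs_pos.mpr hn0) h1
    omega
  have hqz : Prime (q : ℤ) := Nat.prime_iff_prime_int.mp hqp
  have hAz2 : (g : ℤ) = sgn769 true * 2 ^ i * a := by rw [hAz]; simp [sgn769]
  -- `q ≡ 1 mod 3`
  have hq3 : q % 3 = 1 := by
    by_cases h3 : (3 : ℤ) ∣ m
    · have h3' := h3
      rw [hmg] at h3'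
      rcases h3p.dvd_or_dvd h3' with h | h
      · have h3a : (3 : ℤ) ∣ a := by
          have := odd_prime_dvd769 (p := 3) Nat.prime_three (by norm_num) hAz2
            (by exact_mod_cast h)
          exact_mod_cast this
        have h3n : (3 : ℤ) ∣ n₀ := by rw [hng]; exact h.mul_right _
        have h4 := hL4b h3 h3n
        obtain ⟨g', hg'⟩ := h
        have e1 : m / 3 = g' * m₁ := by
          rw [hmg, hg', mul_assoc]
          exact Int.mul_ediv_cancel_left _ (by norm_num)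
        have e2 : n₀ / 3 = g' * n₁ := by
          rw [hng, hg', mul_assoc]
          exact Int.mul_ediv_cancel_left _ (by norm_num)
        rw [e1, e2] at h4
        have h5 : ¬ (3 : ℤ) ∣ g' := by
          rintro ⟨g'', hg''⟩
          have h6 : (3 : ℤ) * 3 ∣ g := ⟨g'', by rw [hg', hg'']; ring⟩
          have h7 := hsq_g 3 h6
          rw [Int.isUnit_iff] at h7
          omega
        have h6 : ∃ k : ℤ, g' ^ 2 = 3 * k + 1 := by
          have : g' % 3 = 1 ∨ g' % 3 = 2 := by omega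
          rcases this with h | h
          · obtain ⟨k, hk⟩ : ∃ k, g' = 3 * k + 1 := ⟨g' / 3, by omega⟩
            exact ⟨3 * k ^ 2 + 2 * k, by rw [hk]; ring⟩
          · obtain ⟨k, hk⟩ : ∃ k, g' = 3 * k + 2 := ⟨g' / 3, by omega⟩
            exact ⟨3 * k ^ 2 + 4 * k + 1, by rw [hk]; ring⟩
        obtain ⟨k', hk'⟩ := h6
        have h8 : (3 : ℤ) ∣ q + m₁ * n₁ := h3a.trans qa
        have h9 : -(g' * m₁) * (g' * n₁) = -(m₁ * n₁) + 3 * (-(k' * (m₁ * n₁))) := by
          linear_combination (-(m₁ * n₁)) * hk'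
        rw [h9] at h4
        generalize m₁ * n₁ = P at h4 h8
        generalize k' * P = Q at h4
        omega
      · have h3b : (3 : ℤ) ∣ b := by
          have := odd_prime_dvd769 (p := 3) Nat.prime_three (by norm_num) hB
            (by exact_mod_cast (dvd_neg).mpr h)
          exact_mod_cast this
        have h3n : ¬ (3 : ℤ) ∣ n₀ := by
          intro h'
          have h4 : IsCoprime (3 : ℤ) n₀ := hcn₀b.symm.of_isCoprime_of_dvd_left h3b
          exact h3p.not_unit (h4.isUnit_of_dvd' dvd_rfl h')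
        have h4 := hL4a h3 h3n
        have h8 : (3 : ℤ) ∣ q - n₀ := h3b.trans qb
        omega
    · have hw3 : w = 3 := by
        rcases hw with h | h
        · exact absurd (hw1.mp h) h3
        · exact h
      rw [hw3] at qw
      push_cast at qw
      omega
  -- `q` is prime to `a`, `b`, `c₃`
  have hq_not_dvd : ∀ x : ℕ, ((x : ℤ) ∣ m ∨ (x : ℤ) ∣ n₀) → ¬ q ∣ x := by
    intro x hx hqx
    have hqx' : (q : ℤ) ∣ x := by exact_mod_cast hqx
    rcases hx with h | h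
    · exact hqm (hqx'.trans h)
    · exact hqn (hqx'.trans h)
  have ha_m : (a : ℤ) ∣ m := by rw [hmg]; exact ha_g.mul_right _
  have hb_m' : (b : ℤ) ∣ m := by rw [hmg]; exact hb_m.mul_left _
  have hc_n' : (c₃ : ℤ) ∣ n₀ := by rw [hng]; exact hc_n.mul_left _
  have hqa : a.Coprime q :=
    ((Nat.Prime.coprime_iff_not_dvd hqp).mpr (hq_not_dvd a (Or.inl ha_m))).symm
  have hqb : b.Coprime q :=
    ((Nat.Prime.coprime_iff_not_dvd hqp).mpr (hq_not_dvd b (Or.inl hb_m'))).symm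
  have hcq2 : (c₃ * q) % 2 = 1 := by rw [Nat.mul_mod, hc, hq2]
  -- the product formula
  have hT := lemmaT769 a b (c₃ * q) ha2 hb hcq2 hab (Nat.Coprime.mul_right hac hqa)
    (Nat.Coprime.mul_right hbc hqb) (sgn769 tB) (sgn769 tC) (sgn_cases769 tB) (sgn_cases769 tC)
    i j k
  have hF : F8_769 a b (c₃ * q) (sgn769 tB) (sgn769 tC) i j k = 1 := by
    rw [hit, hjt, hkt]
    exact hu q hq8
  have hC' : sgn769 tC * 2 ^ k * ((c₃ * q : ℕ) : ℤ) = -(n₁ * q) := by
    push_cast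
    linear_combination (-(q : ℤ)) * hC
  have e1 : -(sgn769 tB * 2 ^ j * (b : ℤ)) * (sgn769 tC * 2 ^ k * ((c₃ * q : ℕ) : ℤ)) =
      -(m₁ * (n₁ * q)) := by
    rw [hC', ← hB]
    ring
  have e2 : -(sgn769 tC * 2 ^ k * ((c₃ * q : ℕ) : ℤ)) * (2 ^ i * (a : ℤ)) = n₀ * q := by
    rw [hC', ← hAz, hng]
    ring
  have e3 : -(2 ^ i * (a : ℤ)) * (sgn769 tB * 2 ^ j * (b : ℤ)) = m := by
    rw [← hB, ← hAz, hmg]
    ring
  rw [e1, e2, e3, hF] at hT
  have J1 : J(-(m₁ * (n₁ * q)) | a) = 1 := by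
    apply jac_sq_of_dvd769 (y := m₁ * n₁) _ hcmna
    have : -(m₁ * (n₁ * q)) - (m₁ * n₁) ^ 2 = (q + m₁ * n₁) * (-(m₁ * n₁)) := by ring
    rw [this]
    exact qa.mul_right _
  have J2 : J(n₀ * q | b) = 1 := by
    apply jac_sq_of_dvd769 (y := n₀) _ hcn₀b
    have : n₀ * q - n₀ ^ 2 = (q - n₀) * n₀ := by ring
    rw [this]
    exact qb.mul_right _
  have hLc : ∀ p : ℕ, p.Prime → p ≠ 2 → (p : ℤ) ∣ n₁ → J(m | p) = 1 := by
    intro p hp hp2 hpn
    apply hL1 p hp hp2 (by rw [hng]; exact hpn.mul_left _)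
    intro hpm
    have hpz : Prime (p : ℤ) := Nat.prime_iff_prime_int.mp hp
    rw [hmg] at hpm
    rcases hpz.dvd_or_dvd hpm with h | h
    · exact hpz.not_unit (hc_gn.isUnit_of_dvd' h hpn)
    · exact hpz.not_unit (hc_mn.isUnit_of_dvd' h hpn)
  have J3 : J(m | c₃) = 1 := by
    apply jac_one_of_primes769
    intro p hp hpc
    have hp2 : p ≠ 2 := by
      rintro rfl
      have := Nat.mod_eq_zero_of_dvd hpc
      omega
    exact hLc p hp hp2 (dvd_trans (by exact_mod_cast hpc) hc_n)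
  have Jq : J(m | q) = 1 := by
    rw [J1, J2, jacobiSym.mul_right' m hc0 hqp.ne_zero, J3] at hT
    simpa using hT
  -- the three roots
  have hsq_gN : Squarefree g := by
    have := Int.squarefree_natAbs.mpr hsq_g
    simpa using this
  have R1 : ∃ t : ℤ, (g : ℤ) ∣ t ^ 2 + m₁ * (n₁ * q) := by
    obtain ⟨t, ht⟩ := sq_crt769 (-(m₁ * (n₁ * q))) g hsq_gN (by
      intro p hp hp2 hpg
      have hpa : (p : ℤ) ∣ a :=
        odd_prime_dvd769 hp hp2 hAz2 (by exact_mod_cast hpg)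
      refine ⟨m₁ * n₁, hpa.trans ?_⟩
      have : (m₁ * n₁) ^ 2 - -(m₁ * (n₁ * q)) = (q + m₁ * n₁) * (m₁ * n₁) := by ring
      rw [this]
      exact qa.mul_right _)
    exact ⟨t, by rwa [sub_neg_eq_add] at ht⟩
  have R2 : ∃ s : ℤ, m₁ ∣ s ^ 2 - g * (n₁ * q) := by
    obtain ⟨t, ht⟩ := sq_crt769 (g * (n₁ * q)) m₁.natAbs (Int.squarefree_natAbs.mpr hsq_m₁) (by
      intro p hp hp2 hpm
      have hpm' : (p : ℤ) ∣ -m₁ := by
        rw [dvd_neg]
        exact Int.natCast_dvd.mpr hpm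
      have hpb : (p : ℤ) ∣ b := odd_prime_dvd769 hp hp2 hB hpm'
      refine ⟨n₀, hpb.trans ?_⟩
      have : n₀ ^ 2 - g * (n₁ * q) = (q - n₀) * (-n₀) := by rw [hng]; ring
      rw [this]
      exact qb.mul_right _)
    exact ⟨t, Int.natAbs_dvd.mp ht⟩
  have R3 : ∃ r : ℤ, (n₁ * q) ∣ r ^ 2 - g * m₁ := by
    have hcnq : IsCoprime n₁ (q : ℤ) := by
      rw [isCoprime_comm, hqz.coprime_iff_not_dvd]
      intro h
      exact hqn (by rw [hng]; exact h.mul_left _)
    have hsqnq : Squarefree (n₁ * q) :=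
      squarefree_mul_iff.mpr ⟨hcnq.isRelPrime, hsq_n₁, hqz.squarefree⟩
    obtain ⟨t, ht⟩ := sq_crt769 m (n₁ * q).natAbs (Int.squarefree_natAbs.mpr hsqnq) (by
      intro p hp hp2 hpn
      have hpz : Prime (p : ℤ) := Nat.prime_iff_prime_int.mp hp
      have hpn' : (p : ℤ) ∣ n₁ * q := Int.natCast_dvd.mpr hpn
      rcases hpz.dvd_or_dvd hpn' with h | h
      · exact jac_root769 hp (hLc p hp hp2 h)
      · have hpq : p ∣ q := by exact_mod_cast h
        have : p = q := (Nat.prime_dvd_prime_iff_eq hp hqp).mp hpq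
        rw [this]
        exact jac_root769 hqp Jq)
    exact ⟨t, by rw [← hmg]; exact Int.natAbs_dvd.mp ht⟩
  -- squarefreeness of the product
  have hsqall : Squarefree (g * m₁.natAbs * (n₁ * q).natAbs) := by
    have hcnq : IsCoprime n₁ (q : ℤ) := by
      rw [isCoprime_comm, hqz.coprime_iff_not_dvd]
      intro h
      exact hqn (by rw [hng]; exact h.mul_left _)
    have hsqnq : Squarefree (n₁ * q) :=
      squarefree_mul_iff.mpr ⟨hcnq.isRelPrime, hsq_n₁, hqz.squarefree⟩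
    have hcmq : IsCoprime m (q : ℤ) := by
      rw [isCoprime_comm, hqz.coprime_iff_not_dvd]
      exact hqm
    have hcmn : IsCoprime m n₁ := by
      rw [hmg]
      exact hc_gn.mul_left hc_mn
    have h1 : Squarefree (m * (n₁ * q)) :=
      squarefree_mul_iff.mpr ⟨(hcmn.mul_right hcmq).isRelPrime, hm, hsqnq⟩
    have h2 := Int.squarefree_natAbs.mpr h1
    have h3 : (m * (n₁ * q)).natAbs = g * m₁.natAbs * (n₁ * q).natAbs := by
      rw [Int.natAbs_mul m, hmg, Int.natAbs_mul, Int.natAbs_natCast]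
    rw [h3] at h2
    exact h2
  have hnq0 : n₁ * q ≠ 0 := mul_ne_zero hn₁0 (by exact_mod_cast hqp.ne_zero)
  have hsign3 : ¬ (m₁ < 0 ∧ n₁ * q < 0) := by
    rintro ⟨h1, h2⟩
    apply hsign
    have hq0 : (0 : ℤ) < q := by exact_mod_cast hqp.pos
    have h3 : n₁ < 0 := by
      by_contra h
      push_neg at h
      have := mul_nonneg h hq0.le
      linarith
    constructor
    · rw [hmg]; exact mul_neg_of_pos_of_neg hgZ h1
    · rw [hng]; exact mul_neg_of_pos_of_neg hgZ h3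
  obtain ⟨x, y, z, hne, he⟩ := glegendre769 g hg m₁ (n₁ * q) hm₁0 hnq0 hsqall hsign3 R1 R2 R3
  have hfin : ((g : ℤ) * x) ^ 2 = m * y ^ 2 + n₀ * q * z ^ 2 := by
    rw [hmg, hng]
    linear_combination (g : ℤ) * he
  refine ⟨q, hqp, hq3, g * x, y, z, ?_, hfin⟩
  intro hz
  rw [hz] at hfin he
  have hy : y = 0 := not_sq769 hm hm1 (X := g * x) (by linear_combination hfin)
  rw [hy] at he
  have hx : x = 0 := by
    have h1 : (g : ℤ) * x ^ 2 = 0 := by linear_combination he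
    rcases mul_eq_zero.mp h1 with h | h
    · exact absurd h hgZ.ne'
    · exact pow_eq_zero_iff (by norm_num) |>.mp h
  rcases hne with h | h | h
  · exact h hx
  · exact h hy
  · exact h hz

end Fermat.Agent.LT.T6.H769
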