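import Fermat.Agent.LT.T6.H438.HasseQ3
import Fermat.Agent.LT.T6.H769.CoreSel

/-!
# Row LT, T6.00q.7 `CoreC438` (helper769, OFF-MAIN): normalisation

The finite set `P` of primes `p ≡ 2 mod 3` with `v_p(c)` odd, the squarefree number
`c₂ = ∏_{p ∈ P} p`, and `c = ± c₂ · n` with `n` everywhere locally a norm from `ℚ(√-3)`.
-/

set_option autoImplicit false

namespace Fermat.Agent.LT.T6.H769

open Fermat.Agent.LT.T6.H438
open scoped NumberTheorySymbols

/-- The primes `p ≡ 2 mod 3` with `v_p(c)` odd. -/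
noncomputable def Pset769 (c : ℚ) : Finset ℕ :=
  ((c.num.natAbs * c.den).primeFactors).filter (fun p => p % 3 = 2 ∧ Odd (padicValRat p c))

theorem mem_Pset769 {c : ℚ} (hc : c ≠ 0) (p : ℕ) :
    p ∈ Pset769 c ↔ p.Prime ∧ p % 3 = 2 ∧ Odd (padicValRat p c) := by
  unfold Pset769
  rw [Finset.mem_filter, Nat.mem_primeFactors]
  constructor
  · rintro ⟨⟨hp, -, -⟩, h2, h3⟩
    exact ⟨hp, h2, h3⟩
  · rintro ⟨hp, h2, h3⟩
    refine ⟨⟨hp, ?_, ?_⟩, h2, h3⟩
    · by_contra hnd
      have h1 : ¬ p ∣ c.num.natAbs := fun h => hnd (h.mul_right _)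
      have h4 : ¬ p ∣ c.den := fun h => hnd (h.mul_left _)
      have h5 : padicValRat p c = 0 := by
        rw [padicValRat_def, padicValInt, padicValNat.eq_zero_of_not_dvd h1,
          padicValNat.eq_zero_of_not_dvd h4]
        simp
      rw [h5] at h3
      exact absurd h3 (by decide)
    · exact mul_ne_zero (Int.natAbs_ne_zero.mpr (Rat.num_ne_zero.mpr hc)) c.den_ne_zero

/-- Products of primes: divisibility. -/
theorem prime_dvd_prod769 {P : Finset ℕ} (hP : ∀ p ∈ P, p.Prime) {p : ℕ} (hp : p.Prime) :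
    p ∣ ∏ r ∈ P, r ↔ p ∈ P := by
  rw [hp.prime.dvd_finsetProd_iff]
  constructor
  · rintro ⟨r, hr, hpr⟩
    rwa [(Nat.prime_dvd_prime_iff_eq hp (hP r hr)).mp hpr]
  · intro h
    exact ⟨p, h, dvd_rfl⟩

theorem sqf_prod769 {P : Finset ℕ} (hP : ∀ p ∈ P, p.Prime) : Squarefree (∏ r ∈ P, r) := by
  apply Finset.squarefree_prod_of_pairwise_isCoprime
  · intro x hx y hy hxy
    exact Nat.coprime_iff_isRelPrime.mp ((Nat.coprime_primes (hP x hx) (hP y hy)).mpr hxy)
  · intro x hx
    exact (hP x hx).squarefree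

theorem val_prod769 {P : Finset ℕ} (hP : ∀ p ∈ P, p.Prime) {p : ℕ} (hp : p.Prime) :
    padicValNat p (∏ r ∈ P, r) = if p ∈ P then 1 else 0 := by
  split_ifs with h
  · rw [← Nat.factorization_def _ hp]
    exact Nat.factorization_eq_one_of_squarefree (sqf_prod769 hP) hp
      ((prime_dvd_prod769 hP hp).mpr h)
  · exact padicValNat.eq_zero_of_not_dvd (fun h' => h ((prime_dvd_prod769 hP hp).mp h'))

theorem prod_mod3_769 (P : Finset ℕ) (hP : ∀ p ∈ P, p % 3 = 2) :
    (∏ r ∈ P, r) % 3 = if Even P.card then 1 else 2 := by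
  induction P using Finset.induction_on with
  | empty => simp
  | insert a s ha ih =>
    rw [Finset.prod_insert ha, Finset.card_insert_of_notMem ha, Nat.mul_mod,
      hP a (Finset.mem_insert_self a s), ih (fun p hp => hP p (Finset.mem_insert_of_mem hp))]
    by_cases h : Even s.card
    · have : ¬ Even (s.card + 1) := by
        rw [Nat.even_add_one]
        exact not_not.mpr h
      simp [h, this]
    · have : Even (s.card + 1) := by
        rw [Nat.even_add_one]
        exact h
      simp [h, this]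

end Fermat.Agent.LT.T6.H769
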